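import Fermat.Agent.Lib.Cyclo.ModCharGlobal
import Fermat.Agent.F4.Datum

/-!
# F4 / Loc / Datum / CycloLevel : the cyclotomic fields are levels of `G_S` (DATUM input)

* `cycloField_isUnramifiedOutside` : `ℚ(μ_n)` is unramified outside `S` if `S` contains the primes
  dividing `n` (Prelude's `IntermediateField.IsUnramifiedOutside`; from `Lib/Cyclo`,
  `modChar_inertia`);
* `cycloField_mem_levelsS`, `cycloField_mem_levelsAll` : `Gal(ℚ̄/ℚ(μ_n))` is a level;
* `padicEmbedding_fixes_roots` : a local automorphism `τ` of `Ω = PadicAlgCl q` whose image in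
  `Gal(ℚ̄/ℚ)` fixes `ℚ(μ_n)` fixes the `n`-th roots of unity of `Ω`;
* `exists_locLevelS_fixing_roots` : for `p ∈ S` and every `k` there is a level of `locLevelsS S q`
  fixing the `p^k`-th roots of unity of `Ω` (the hypothesis of the `cyclo` step).
-/

set_option autoImplicit false

open ExtCitation

namespace Fermat.Agent.F4.Loc

open Fermat.Agent.Cyclo

section Global

variable (n : ℕ) [NeZero n]

/-- An automorphism with trivial mod `n` cyclotomic character fixes `ℚ(μ_n)`. -/
theorem mem_fixingSubgroup_cycloField_of_modChar (σ : Cyclo.GQ) (h : modChar n σ = 1) :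
    σ ∈ (cycloField n).fixingSubgroup := by
  have hroot : ∀ t : Qb, t ^ n = 1 → σ t = t := by
    intro t ht
    have h1 := modChar_spec n σ ht
    rw [h] at h1
    rcases Nat.lt_or_ge 1 n with hn | hn
    · have : Fact (1 < n) := ⟨hn⟩
      rw [Units.val_one, ZMod.val_one, pow_one] at h1
      exact h1
    · have hn1 : n = 1 := le_antisymm hn (Nat.pos_of_ne_zero (NeZero.ne n))
      subst hn1
      have : t = 1 := by simpa using ht
      rw [this, map_one]
  rw [IntermediateField.mem_fixingSubgroup_iff]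
  have hle : cycloField n ≤ IntermediateField.fixedField (Subgroup.zpowers σ) := by
    unfold cycloField
    rw [IntermediateField.adjoin_le_iff]
    intro t ht
    rw [Polynomial.mem_rootSet] at ht
    have ht1 : t ^ n = 1 := by
      have := ht.2
      simpa [sub_eq_zero] using this
    rw [SetLike.mem_coe, IntermediateField.mem_fixedField_iff]
    intro τ hτ
    obtain ⟨k, rfl⟩ := Subgroup.mem_zpowers_iff.1 hτ
    have hfix : ∀ m : ℕ, (σ ^ m) t = t := by
      intro m
      induction m with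
      | zero => simp
      | succ m ih => rw [pow_succ, AlgEquiv.mul_apply, hroot t ht1, ih]
    have hfixinv : ∀ m : ℕ, ((σ ^ m)⁻¹) t = t := by
      intro m
      have := hfix m
      calc ((σ ^ m)⁻¹) t = ((σ ^ m)⁻¹) ((σ ^ m) t) := by rw [this]
        _ = t := by
          rw [← AlgEquiv.mul_apply, inv_mul_cancel, AlgEquiv.one_apply]
    rcases Int.eq_nat_or_neg k with ⟨m, rfl | rfl⟩
    · rw [zpow_natCast]; exact hfix m
    · rw [zpow_neg, zpow_natCast]; exact hfixinv m
  intro x hx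
  have := hle hx
  rw [IntermediateField.mem_fixedField_iff] at this
  exact this σ (Subgroup.mem_zpowers σ)

/-- `ℚ(μ_n)` is unramified outside every `S` containing the primes dividing `n`. -/
theorem cycloField_isUnramifiedOutside (S : Finset Nat.Primes)
    (hS : ∀ ℓ : Nat.Primes, (ℓ : ℕ) ∣ n → ℓ ∈ S) : (cycloField n).IsUnramifiedOutside S := by
  refine ⟨inferInstance, fun ℓ hℓ A hA σ hσ => ?_⟩
  have hn : ¬ (ℓ : ℕ) ∣ n := fun h => hℓ (hS ℓ h)
  exact mem_fixingSubgroup_cycloField_of_modChar n σ (modChar_inertia n ℓ.2 hn A hA σ hσ)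

/-- `ℚ(μ_n)` is stable under `Gal(ℚ̄/ℚ)`. -/
theorem cycloField_isStableField : IsStableField (cycloField n) := by
  intro σ x hx
  have : Algebra.IsAlgebraic ℚ Qb := AlgebraicClosure.isAlgebraic ℚ
  have : IsAlgClosure ℚ Qb := ⟨inferInstance, inferInstance⟩
  have : Normal ℚ Qb := IsAlgClosure.normal ℚ Qb
  have h := (IntermediateField.normal_iff_forall_map_le'.1 (normal_cycloField n)) σ
  exact h ⟨x, hx, rfl⟩

/-- `Gal(ℚ̄/ℚ(μ_n))` is a level of `G_S` when `S` contains the primes dividing `n`. -/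
theorem cycloField_mem_levelsS (S : Finset Nat.Primes)
    (hS : ∀ ℓ : Nat.Primes, (ℓ : ℕ) ∣ n → ℓ ∈ S) :
    (cycloField n).fixingSubgroup ∈ (levelsS S).sets :=
  ⟨cycloField n, cycloField_isUnramifiedOutside n S hS, cycloField_isStableField n, rfl⟩

/-- `Gal(ℚ̄/ℚ(μ_n))` is a level of `G_ℚ`. -/
theorem cycloField_mem_levelsAll : (cycloField n).fixingSubgroup ∈ levelsAll.sets :=
  ⟨cycloField n, inferInstance, cycloField_isStableField n, rfl⟩

end Global

section Local

variable (q : ℕ) [Fact q.Prime] (n : ℕ) [NeZero n]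

/-- Every `n`-th root of unity of `Ω` comes from `ℚ̄`. -/
theorem exists_padicEmbedding_root {ζ : PadicAlgCl q} (hζ : ζ ^ n = 1) :
    ∃ t : Qb, t ^ n = 1 ∧ padicEmbedding q t = ζ := by
  obtain ⟨t₀, ht₀⟩ := HasEnoughRootsOfUnity.exists_primitiveRoot Qb n
  have hprim : IsPrimitiveRoot (padicEmbedding q t₀) n :=
    ht₀.map_of_injective (padicEmbedding q).toRingHom.injective
  obtain ⟨i, -, hi⟩ := hprim.eq_pow_of_pow_eq_one hζ
  refine ⟨t₀ ^ i, ?_, ?_⟩
  · rw [← pow_mul, mul_comm, pow_mul, ht₀.pow_eq_one, one_pow]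
  · rw [map_pow, hi]

/-- A local automorphism whose image in `Gal(ℚ̄/ℚ)` fixes `ℚ(μ_n)` fixes the `n`-th roots of unity
of `Ω`. -/
theorem padicEmbedding_fixes_roots (τ : PadicAlgCl q ≃ₐ[ℚ_[q]] PadicAlgCl q)
    (hτ : localGaloisToGlobal q τ ∈ (cycloField n).fixingSubgroup)
    {ζ : PadicAlgCl q} (hζ : ζ ^ n = 1) : τ ζ = ζ := by
  obtain ⟨t, ht, rfl⟩ := exists_padicEmbedding_root q n hζ
  rw [← padicEmbedding_localGaloisToGlobal]
  congr 1
  exact (IntermediateField.mem_fixingSubgroup_iff _ _).1 hτ t (mem_cycloField_of_pow_eq_one n ht)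

end Local

/-- For `p ∈ S` and every `k` there is a level of the local group at `q` (for the `S`-levels)
all of whose elements fix the `p^k`-th roots of unity of `PadicAlgCl q`. -/
theorem exists_locLevelS_fixing_roots (p : ℕ) [hp : Fact p.Prime] (S : Finset Nat.Primes)
    (hpS : (⟨p, hp.out⟩ : Nat.Primes) ∈ S) (q : Nat.Primes) (k : ℕ) :
    ∃ V ∈ (locLevelsS S q).sets, ∀ τ ∈ V,
      primeLocalToGlobal q τ ∈ (cycloField (p ^ k)).fixingSubgroup := by
  have hS : ∀ ℓ : Nat.Primes, (ℓ : ℕ) ∣ p ^ k → ℓ ∈ S := by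
    intro ℓ hℓ
    have h1 : (ℓ : ℕ) ∣ p := ℓ.2.dvd_of_dvd_pow hℓ
    have h2 : (ℓ : ℕ) = p := (Nat.prime_dvd_prime_iff_eq ℓ.2 hp.out).1 h1
    have h3 : ℓ = ⟨p, hp.out⟩ := Subtype.ext h2
    rw [h3]
    exact hpS
  exact ⟨_, ⟨_, cycloField_mem_levelsS (p ^ k) S hS, rfl⟩, fun _ hτ => hτ⟩

/-- The same for all levels. -/
theorem exists_locLevelAll_fixing_roots (n : ℕ) [NeZero n] (q : Nat.Primes) :
    ∃ V ∈ (locLevelsAll q).sets, ∀ τ ∈ V,
      primeLocalToGlobal q τ ∈ (cycloField n).fixingSubgroup :=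
  ⟨_, ⟨_, cycloField_mem_levelsAll n, rfl⟩, fun _ hτ => hτ⟩

end Fermat.Agent.F4.Loc
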