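import Fermat.Agent.F4.Loc.Datum.Main
import Fermat.Agent.F4.Cf.RecipDefs

/-!
# F4 / Loc / Datum / Pack : the deliverable of LOC for GLOB  (`LocPack`, `F4/Cf/RecipDefs.lean`)

`nonempty_locPack hpS φ hφ q : Nonempty (LocPack p S φ q)` : the local datum at `q` with
`K = hullK p (LqS S q)`, its universal-coefficient datum `hullData p (LqS S q)`, and
`ε = "μ_p ⊂ L_q via φ"`.
-/

set_option autoImplicit false

open CategoryTheory groupCohomology ExtCitation

namespace Fermat.Agent.F4.Loc

open Fermat.Agent.F4Cf

/-- **The deliverable of LOC.** -/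
theorem nonempty_locPack {p : ℕ} [Fact p.Prime] {S : Finset Nat.Primes} (hpS : pPrime p ∈ S)
    (φ : Fp1 p →+ EsRep S) (hφ : IsRootMap φ) (q : Nat.Primes) : Nonempty (LocPack p S φ q) := by
  obtain ⟨inv, invAll, hinv, hinvAll, hcompat⟩ := exists_invs φ q hφ.inj hφ.comm hpS
  exact ⟨{ loc := localDatumOf φ q hφ.inj hφ.comm inv invAll hinv hinvAll hcompat
           I := hullI (LqS S q)
           Q := hullQ (LqS S q)
           dat := locHullData p S q
           smoothI := hullI_CS_smooth S q
           compat := fun _ => rfl }⟩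

end Fermat.Agent.F4.Loc
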