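import Fermat.Agent.F4.UC.Bridge

/-!
# F4 / Loc / Datum / Compare : comparison of `HH²` along an inclusion of formations
(DATUM, seat D-PHI — abstract universal-coefficient algebra, no number theory; sorry-free)

`𝓤 ⊆ 𝓥` two level structures on `G`; `D : UCData p K C I Q` (smooth for `𝓤`),
`D' : UCData p K' C' I' Q'` (smooth for `𝓥`), `K'¹ = 0`; `j : C → C'` equivariant;
`ε : K' → K` a morphism of complexes with `ε⁰ = "φ"` on `p`-torsion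
(`c1 : D.i0 (ε.f0 m) = D.ι (φ m)`, `c2 : D'.i0 m = D'.ι (j (φ m))`).

If `H¹(𝓤, C) = 0`, `H¹(𝓥, C') = 0` and `j_* : H²(𝓤, C) → H²(𝓥, C')` is injective (`hMA`), then
`Φ = β'₂⁻¹ ∘ j_* ∘ β₂ : HH²(𝓤, K) → HH²(𝓥, K')` is an injective linear map with `Φ ∘ ε_* = ` the
change of levels.

Proof sketch.  `D.β2 hI : HH2 𝓤 K →+ H2sm 𝓤 C` and `D'.β2 hI'` are injective
(`UCData.β2_injective_of_H1`), with image the `p`-torsion (`β2_range`).  For `x : HH2 𝓤 K` choose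
`z ∈ ZZ2 𝓤 K`, `w ∈ Z2 𝓤 C` with `Rel2 z w` (`Rel2.exists`); `j ∘ w ∈ Z2 𝓥 C'` is killed by `p`
modulo `B2` (`Rel2.p_smul_mem_B2`), so `Rel2.surj` gives `z' ∈ ZZ2 𝓥 K'` with
`D'.Rel2 𝓥 z' (j ∘ w)`; `Φ x := [z']`.  Well defined and additive by `mem_BB2_of_rel2` for `D'`;
injective by `hMA` + `mem_BB2_of_rel2` for `D`.  Compatibility: for `z : T2 K'`, `Rel2` holds for
`(ε z, φ ∘ z.1)` and `(z, j ∘ φ ∘ z.1)` with `y = 0` (`c1`, `c2`, `K'.K1` subsingleton).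
-/

set_option autoImplicit false

open CategoryTheory groupCohomology

namespace Fermat.Agent.F4.Loc

section Aux

variable {G : Type} [Group G] {𝓤 𝓥 : Levels G}

lemma cmp_isLC₁_mono (hUV : 𝓤.sets ⊆ 𝓥.sets) {X : Type*} {f : G → X} (h : IsLC₁ 𝓤 f) :
    IsLC₁ 𝓥 f := by
  obtain ⟨U, hU, hf⟩ := h
  exact ⟨U, hUV hU, hf⟩

lemma cmp_isLC₂_mono (hUV : 𝓤.sets ⊆ 𝓥.sets) {X : Type*} {f : G × G → X} (h : IsLC₂ 𝓤 f) :
    IsLC₂ 𝓥 f := by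
  obtain ⟨U, hU, hf⟩ := h
  exact ⟨U, hUV hU, hf⟩

variable {C C' : Rep.{0} ℤ G} (j : C →+ C')
  (hj : ∀ (g : G) (c : C), j (C.ρ g c) = C'.ρ g (j c))

include hj

lemma cmp_j_δ1 (c : G → C) (q : G × G) : j (δ1 C c q) = δ1 C' (fun g => j (c g)) q := by
  simp only [δ1_apply, map_sub, map_add, hj]

lemma cmp_j_δ2 (c : G × G → C) (q : G × G × G) :
    j (δ2 C c q) = δ2 C' (fun g => j (c g)) q := by
  simp only [δ2_apply, map_sub, map_add, hj]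

lemma cmp_mem_Z2 (hUV : 𝓤.sets ⊆ 𝓥.sets) {w : G × G → C} (hw : w ∈ Z2 𝓤 C) :
    (fun q => j (w q)) ∈ Z2 𝓥 C' := by
  obtain ⟨h1, h2⟩ := (UC.mem_Z2 𝓤 C w).1 hw
  refine (UC.mem_Z2 𝓥 C' _).2 ⟨?_, cmp_isLC₂_mono hUV (UC.isLC₂_map j h2)⟩
  funext q
  rw [← cmp_j_δ2 j hj, h1]
  simp only [Pi.zero_apply, map_zero]

lemma cmp_mem_B2 (hUV : 𝓤.sets ⊆ 𝓥.sets) {w : G × G → C} (hw : w ∈ B2 𝓤 C) :
    (fun q => j (w q)) ∈ B2 𝓥 C' := by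
  obtain ⟨e, he, rfl⟩ := (UC.mem_B2 𝓤 C w).1 hw
  exact (UC.mem_B2 𝓥 C' _).2 ⟨fun g => j (e g), cmp_isLC₁_mono hUV (UC.isLC₁_map j he),
    funext fun q => (cmp_j_δ1 j hj e q).symm⟩

/-- `j_*` on smooth 2-cocycles (with change of levels). -/
def cmpZ (hUV : 𝓤.sets ⊆ 𝓥.sets) : ↥(Z2 𝓤 C) →+ ↥(Z2 𝓥 C') where
  toFun w := ⟨fun q => j ((w : G × G → C) q), cmp_mem_Z2 j hj hUV w.2⟩
  map_zero' := Subtype.ext (funext fun _ => map_zero j)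
  map_add' _ _ := Subtype.ext (funext fun _ => map_add j _ _)

/-- `j_* : H²(𝓤, C) → H²(𝓥, C')`. -/
def cmpH (hUV : 𝓤.sets ⊆ 𝓥.sets) : H2sm 𝓤 C →+ H2sm 𝓥 C' :=
  QuotientAddGroup.lift _ ((H2smπ 𝓥 C').toAddMonoidHom.comp (cmpZ j hj hUV)) (by
    intro w hw
    have hw' : (w : G × G → C) ∈ B2 𝓤 C := hw
    rw [AddMonoidHom.mem_ker]
    show H2smπ 𝓥 C' _ = 0
    rw [UC.H2smπ_eq_zero_iff]
    exact cmp_mem_B2 j hj hUV hw')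

lemma cmpH_mk (hUV : 𝓤.sets ⊆ 𝓥.sets) (w : ↥(Z2 𝓤 C)) :
    cmpH j hj hUV (H2smπ 𝓤 C w) = H2smπ 𝓥 C' (cmpZ j hj hUV w) := rfl

end Aux

/-- **D-PHI (abstract).**  Comparison of `HH²` along an inclusion of formations. -/
theorem exists_compare_HH2 {G : Type} [Group G] {p : ℕ} [Fact p.Prime]
    {𝓤 𝓥 : Levels G} (hUV : 𝓤.sets ⊆ 𝓥.sets)
    {K K' : Cx (ZMod p) G} {C I Q C' I' Q' : Rep.{0} ℤ G}
    (D : UCData p K C I Q) (D' : UCData p K' C' I' Q')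
    (hI : IsSmooth 𝓤 I) (hI' : IsSmooth 𝓥 I')
    (hK1 : Subsingleton K'.K1)
    (j : C →+ C') (hj : ∀ (g : G) (c : C), j (C.ρ g c) = C'.ρ g (j c))
    (ε : CxHom K' K) (φ : K'.K0 →+ C)
    (c1 : ∀ m : K'.K0, D.i0 (ε.f0 m) = D.ι (φ m))
    (c2 : ∀ m : K'.K0, D'.i0 m = D'.ι (j (φ m)))
    (h90 : UC.H90sm 𝓤 C) (h90' : UC.H90sm 𝓥 C')
    (hMA : ∀ w : G × G → C, w ∈ Z2 𝓤 C → (fun x => j (w x)) ∈ B2 𝓥 C' → w ∈ B2 𝓤 C) :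
    ∃ Φ : HH2 𝓤 K →ₗ[ZMod p] HH2 𝓥 K', Function.Injective Φ ∧
      ∀ (z : T2 K') (hz : z ∈ ZZ2 𝓤 K') (hz' : z ∈ ZZ2 𝓥 K'),
        Φ (HH2π 𝓤 K (ε.mapZZ2 𝓤 ⟨z, hz⟩)) = HH2π 𝓥 K' ⟨z, hz'⟩ := by
  classical
  have hβ : Function.Injective (D.β2 hI) := D.β2_injective_of_H1 hI h90
  have hβ' : Function.Injective (D'.β2 hI') := D'.β2_injective_of_H1 hI' h90'
  have hJinj : Function.Injective (cmpH j hj hUV) := by
    rw [injective_iff_map_eq_zero]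
    intro x hx
    obtain ⟨w, rfl⟩ := UC.H2smπ_surjective C x
    rw [cmpH_mk, UC.H2smπ_eq_zero_iff] at hx
    rw [UC.H2smπ_eq_zero_iff]
    exact hMA _ w.2 hx
  have hex : ∀ x : HH2 𝓤 K, ∃ y : HH2 𝓥 K', D'.β2 hI' y = cmpH j hj hUV (D.β2 hI x) := by
    intro x
    rw [D'.β2_range hI', ← map_zsmul, ← map_zsmul, UC.p_smul_eq_zero, map_zero, map_zero]
  choose Φ₀ hΦ₀ using hex
  have hadd : ∀ x y, Φ₀ (x + y) = Φ₀ x + Φ₀ y := fun x y =>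
    hβ' (by rw [hΦ₀, map_add, map_add, map_add, hΦ₀, hΦ₀])
  refine ⟨(AddMonoidHom.mk' Φ₀ hadd).toZModLinearMap p, ?_, ?_⟩
  · intro x y h
    have h' : Φ₀ x = Φ₀ y := h
    apply hβ
    apply hJinj
    rw [← hΦ₀, ← hΦ₀, h']
  · intro z hz hz'
    show Φ₀ _ = _
    apply hβ'
    rw [hΦ₀]
    have hzero : ∀ g, z.2 g = 0 := fun g => Subsingleton.elim _ _
    have hrel : D.Rel2 𝓤 (ε.onT2 z) (fun q => φ (z.1 q)) := by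
      refine ⟨fun _ => 0, isLC₁_const 𝓤 (0 : I), fun g => ?_, fun q => ?_⟩
      · show D.π 0 = D.i1 (ε.f1 (z.2 g))
        rw [hzero, map_zero, map_zero, map_zero]
      · show D.ι (φ (z.1 q)) = D.i0 (ε.f0 (z.1 q)) - δ1 I (fun _ => 0) q
        rw [c1]
        simp only [δ1_apply, map_zero, sub_self, add_zero, sub_zero]
    have hεz : ε.onT2 z ∈ ZZ2 𝓤 K := ε.onT2_mem_ZZ2 𝓤 hz
    have hw : (fun q => φ (z.1 q)) ∈ Z2 𝓤 C := hrel.mem_Z2 hI hεz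
    have hrel' : D'.Rel2 𝓥 z (fun q => j (φ (z.1 q))) := by
      refine ⟨fun _ => 0, isLC₁_const 𝓥 (0 : I'), fun g => ?_, fun q => ?_⟩
      · show D'.π 0 = D'.i1 (z.2 g)
        rw [hzero, map_zero, map_zero]
      · show D'.ι (j (φ (z.1 q))) = D'.i0 (z.1 q) - δ1 I' (fun _ => 0) q
        rw [c2]
        simp only [δ1_apply, map_zero, sub_self, add_zero, sub_zero]
    rw [D.β2_mk hI (ε.mapZZ2 𝓤 ⟨z, hz⟩) ⟨_, hw⟩ hrel, cmpH_mk]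
    exact (D'.β2_mk hI' ⟨z, hz'⟩ (cmpZ j hj hUV ⟨_, hw⟩) hrel').symm

end Fermat.Agent.F4.Loc
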