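import Fermat.Agent.F4.Loc.Formation
import Fermat.Agent.F4.Formation

/-!
# F4 / Loc / Datum / Units : the module of smooth units of a level structure (DATUM, seat D-UNITS)

`Γ₀` a group acting on `Ω = PadicAlgCl q`, `𝓛` a level structure on `Γ₀`.

* `smUnits q 𝓛 : Rep ℤ Γ₀` : the units of `Ω` fixed by some level of `𝓛` (written additively);
* `smUnitsJ q 𝓛 : smUnits q 𝓛 →+ Additive Ωˣ` : the inclusion;
* `locFormation_smUnits` : `(Γ₀, 𝓛, smUnits q 𝓛)` is a local formation;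
* `locFormation_res` : for `U` open, `(↥U, 𝓛.sub U, (smUnits q 𝓛)|_U)` is a local formation.
-/

set_option autoImplicit false
set_option linter.unusedSectionVars false

noncomputable section

open CategoryTheory groupCohomology

namespace Fermat.Agent.F4.Loc

section SmUnits

variable (q : ℕ) [Fact q.Prime] {Γ₀ : Type} [Group Γ₀]
  [MulSemiringAction Γ₀ (PadicAlgCl q)] [MulDistribMulAction Γ₀ (PadicAlgCl q)ˣ]
  (𝓛 : Levels Γ₀)

/-- The additive subgroup of the `𝓛`-smooth units. -/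
def smUnitsSub : AddSubgroup (Additive (PadicAlgCl q)ˣ) where
  carrier := {u | ∃ V ∈ 𝓛.sets, IsFixedBy V (Additive.toMul u)}
  zero_mem' := by
    obtain ⟨V, hV⟩ := 𝓛.nonempty
    exact ⟨V, hV, fun h _ => smul_one h⟩
  add_mem' := by
    rintro a b ⟨V, hV, ha⟩ ⟨V', hV', hb⟩
    obtain ⟨W, hW, hWle⟩ := 𝓛.directed V hV V' hV'
    refine ⟨W, hW, fun h hh => ?_⟩
    show h • (Additive.toMul a * Additive.toMul b) = Additive.toMul a * Additive.toMul b
    rw [smul_mul', ha h (hWle hh).1, hb h (hWle hh).2]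
  neg_mem' := by
    rintro a ⟨V, hV, ha⟩
    refine ⟨V, hV, fun h hh => ?_⟩
    show h • (Additive.toMul a)⁻¹ = (Additive.toMul a)⁻¹
    rw [smul_inv', ha h hh]

lemma mem_smUnitsSub (u : Additive (PadicAlgCl q)ˣ) :
    u ∈ smUnitsSub q 𝓛 ↔ ∃ V ∈ 𝓛.sets, IsFixedBy V (Additive.toMul u) := Iff.rfl

/-- The smooth units are stable under `Γ₀`. -/
lemma smul_mem_smUnitsSub (g : Γ₀) {u : Additive (PadicAlgCl q)ˣ} (hu : u ∈ smUnitsSub q 𝓛) :
    Additive.ofMul (g • Additive.toMul u) ∈ smUnitsSub q 𝓛 := by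
  obtain ⟨V, hV, hfix⟩ := hu
  have hVn := 𝓛.normal V hV
  refine ⟨V, hV, fun h hh => ?_⟩
  show h • (g • Additive.toMul u) = g • Additive.toMul u
  have h1 : g⁻¹ * h * g ∈ V := by
    have := hVn.conj_mem h hh g⁻¹
    simpa using this
  have h2 : h • (g • Additive.toMul u) = g • ((g⁻¹ * h * g) • Additive.toMul u) := by
    rw [← mul_smul, ← mul_smul]
    congr 1
    group
  rw [h2, hfix _ h1]

/-- The action of `g` on the smooth units. -/
def smUnitsAct (g : Γ₀) : ↥(smUnitsSub q 𝓛) →+ ↥(smUnitsSub q 𝓛) where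
  toFun u := ⟨Additive.ofMul (g • Additive.toMul (u : Additive (PadicAlgCl q)ˣ)),
    smul_mem_smUnitsSub q 𝓛 g u.2⟩
  map_zero' := by
    apply Subtype.ext
    show Additive.ofMul (g • (1 : (PadicAlgCl q)ˣ)) = 0
    rw [smul_one]; rfl
  map_add' a b := by
    apply Subtype.ext
    show Additive.ofMul (g • (Additive.toMul (a : Additive (PadicAlgCl q)ˣ) *
      Additive.toMul (b : Additive (PadicAlgCl q)ˣ))) = _
    rw [smul_mul']; rfl

/-- The representation of `Γ₀` on the smooth units. -/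
def smUnitsRepr : Representation ℤ Γ₀ ↥(smUnitsSub q 𝓛) where
  toFun g := (smUnitsAct q 𝓛 g).toIntLinearMap
  map_one' := by
    refine LinearMap.ext fun u => Subtype.ext ?_
    show Additive.ofMul ((1 : Γ₀) • Additive.toMul (u : Additive (PadicAlgCl q)ˣ)) = _
    rw [one_smul]; rfl
  map_mul' g h := by
    refine LinearMap.ext fun u => Subtype.ext ?_
    show Additive.ofMul ((g * h) • Additive.toMul (u : Additive (PadicAlgCl q)ˣ)) = _
    rw [mul_smul]; rfl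

/-- The module of `𝓛`-smooth units of `Ω`, as a `ℤ[Γ₀]`-module. -/
abbrev smUnits : Rep.{0} ℤ Γ₀ := Rep.of (smUnitsRepr q 𝓛)

/-- The inclusion of the smooth units into the units of `Ω`. -/
def smUnitsJ : smUnits q 𝓛 →+ Additive (PadicAlgCl q)ˣ := (smUnitsSub q 𝓛).subtype

lemma smUnitsJ_injective : Function.Injective (smUnitsJ q 𝓛) := Subtype.val_injective

lemma smUnitsJ_ρ (g : Γ₀) (c : smUnits q 𝓛) :
    smUnitsJ q 𝓛 ((smUnits q 𝓛).ρ g c) = Additive.ofMul (g • Additive.toMul (smUnitsJ q 𝓛 c)) := rfl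

lemma smUnitsJ_range (u : (PadicAlgCl q)ˣ) :
    (∃ c : smUnits q 𝓛, smUnitsJ q 𝓛 c = Additive.ofMul u) ↔ ∃ V ∈ 𝓛.sets, IsFixedBy V u := by
  constructor
  · rintro ⟨c, hc⟩
    obtain ⟨V, hV, hfix⟩ := c.2
    refine ⟨V, hV, ?_⟩
    have : Additive.toMul (c : Additive (PadicAlgCl q)ˣ) = u := congrArg Additive.toMul hc
    rwa [this] at hfix
  · rintro ⟨V, hV, hfix⟩
    exact ⟨⟨Additive.ofMul u, V, hV, hfix⟩, rfl⟩

/-- The element of `smUnits q 𝓛` attached to a unit fixed by a level. -/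
def smUnitsMk (u : (PadicAlgCl q)ˣ) (hu : ∃ V ∈ 𝓛.sets, IsFixedBy V u) : smUnits q 𝓛 :=
  ⟨Additive.ofMul u, hu⟩

lemma smUnitsJ_mk (u : (PadicAlgCl q)ˣ) (hu : ∃ V ∈ 𝓛.sets, IsFixedBy V u) :
    smUnitsJ q 𝓛 (smUnitsMk q 𝓛 u hu) = Additive.ofMul u := rfl

/-- The smooth units are a smooth module. -/
theorem smUnits_isSmooth : IsSmooth 𝓛 (smUnits q 𝓛) := by
  intro c
  obtain ⟨V, hV, hfix⟩ := c.2
  refine ⟨V, hV, fun g hg => Subtype.ext ?_⟩
  show Additive.ofMul (g • Additive.toMul (c : Additive (PadicAlgCl q)ˣ)) = _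
  rw [hfix g hg]; rfl

/-- **The formation of the smooth units.** -/
def locFormation_smUnits (hΓ : IsLocalGal q Γ₀) (hopen : ∀ V ∈ 𝓛.sets, IsOpenSub q V) :
    LocFormation q 𝓛 (smUnits q 𝓛) where
  isLocalGal := hΓ
  isOpenSub := hopen
  j := smUnitsJ q 𝓛
  j_inj := smUnitsJ_injective q 𝓛
  j_comm := smUnitsJ_ρ q 𝓛
  j_range := smUnitsJ_range q 𝓛

/-- A unit is fixed by a level of `𝓛.sub U` iff it is fixed by a level of `𝓛` (`U` open). -/
lemma exists_fixed_sub_iff {U : Subgroup Γ₀} (hU : 𝓛.IsOpen U) (u : (PadicAlgCl q)ˣ) :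
    (∃ V ∈ (𝓛.sub U).sets, IsFixedBy V u) ↔ ∃ V ∈ 𝓛.sets, IsFixedBy V u := by
  constructor
  · rintro ⟨_, ⟨V, hV, rfl⟩, hfix⟩
    obtain ⟨V₀, hV₀, hV₀U⟩ := hU
    obtain ⟨W, hW, hWle⟩ := 𝓛.directed V hV V₀ hV₀
    refine ⟨W, hW, fun h hh => ?_⟩
    exact hfix ⟨h, hV₀U (hWle hh).2⟩ (hWle hh).1
  · rintro ⟨V, hV, hfix⟩
    exact ⟨V.comap U.subtype, ⟨V, hV, rfl⟩, fun h hh => hfix (h : Γ₀) hh⟩

/-- **The formation over an open subgroup** `U`: `(↥U, 𝓛.sub U, (smUnits q 𝓛)|_U)`. -/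
def locFormation_res (hΓ : IsLocalGal q Γ₀) (hopen : ∀ V ∈ 𝓛.sets, IsOpenSub q V)
    (U : Subgroup Γ₀) (hU : 𝓛.IsOpen U) :
    LocFormation q (𝓛.sub U) (Rep.res U.subtype (smUnits q 𝓛)) where
  isLocalGal := by
    obtain ⟨V, hV, hVU⟩ := hU
    exact hΓ.subgroup U ((hopen V hV).of_le hΓ hVU)
  isOpenSub := by
    rintro _ ⟨V, hV, rfl⟩
    exact (hopen V hV).subgroupOf
  j := smUnitsJ q 𝓛
  j_inj := smUnitsJ_injective q 𝓛
  j_comm γ c := smUnitsJ_ρ q 𝓛 (γ : Γ₀) c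
  j_range u := (smUnitsJ_range q 𝓛 u).trans (exists_fixed_sub_iff q 𝓛 hU u).symm

end SmUnits

end Fermat.Agent.F4.Loc

end
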