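import Fermat.Agent.F4.Datum
import Fermat.Agent.F4.Loc.Datum.Units
import Fermat.Agent.F4.Hull.Hull
import Fermat.Agent.F4.Shapiro.R2
import Fermat.Agent.F4.UC.Bridge
import Fermat.Agent.F4.BR.LevelsBridge
import Fermat.Agent.F4.Dict.Formation
import Fermat.Agent.F4.Loc.Smooth.Main

/-!
# F4 / Loc / Datum / Defs : the concrete local objects at a prime `q` (DATUM, FIXED definitions)

`G_q = primeLocalGaloisGroup q` acting on `Ω = PadicAlgCl q`; levels `locLevelsS S q`,
`locLevelsAll q` (`F4/Datum.lean`).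

* `CS S q = LqS S q`, `CAll q = LqAll q` (`F4/Dict/Formation.lean`) : the `ℤ[G_q]`-modules of
  units of `Ω` fixed by an `S`-level, resp. by a level;
* `lqJ`, `locFormation_lq` : `(G_q, 𝓛, smUnits 𝓛 (locAct q))` is a local formation;
  (`LocFormation.res`, restriction to an open subgroup, is in `F4/Loc/Smooth/Res.lean`);
* `locK p S q = hullK p (CS S q)` : the complex `K_q` of the local datum, `locHullData` its
  universal-coefficient datum;
* `zeroRep` : the zero `ℤ[G]`-module.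
(SMOOTH's deliverables are in `F4/Loc/Smooth/Main.lean`; the glue to `F4/Shapiro/R2.lean` is
`F4/UC/Bridge.lean`, helper9.)
-/

set_option autoImplicit false
set_option linter.unusedSectionVars false

open CategoryTheory groupCohomology ExtCitation

noncomputable section

namespace Fermat.Agent.F4.Loc

/-- A prime as a `Fact`. -/
instance instFactNatPrimesCoe (q : Nat.Primes) : Fact (q : ℕ).Prime := ⟨q.2⟩

/-- The local Galois group at `q` acts on `Ω`. -/
instance primeLocalMulSemiringAction (q : Nat.Primes) :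
    MulSemiringAction (primeLocalGaloisGroup q) (PadicAlgCl (q : ℕ)) :=
  inferInstanceAs (MulSemiringAction (LG (q : ℕ)) (PadicAlgCl (q : ℕ)))

/-- The local Galois group at `q` acts on `Ωˣ`. -/
instance primeLocalMulDistribMulAction (q : Nat.Primes) :
    MulDistribMulAction (primeLocalGaloisGroup q) (PadicAlgCl (q : ℕ))ˣ :=
  inferInstanceAs (MulDistribMulAction (LG (q : ℕ)) (PadicAlgCl (q : ℕ))ˣ)

lemma primeLocal_smul_def (q : Nat.Primes) (g : primeLocalGaloisGroup q)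
    (x : PadicAlgCl (q : ℕ)) :
    g • x = (show PadicAlgCl (q : ℕ) ≃ₐ[ℚ_[(q : ℕ)]] PadicAlgCl (q : ℕ) from g) x := rfl

/-- The zero `ℤ[G]`-module. -/
abbrev zeroRep (G : Type) [Group G] : Rep.{0} ℤ G :=
  Rep.of (k := ℤ) (G := G) (X := PUnit.{1}) 1

section Concrete

variable (p : ℕ) [Fact p.Prime] (S : Finset Nat.Primes) (q : Nat.Primes)

/-- The units of `(ℚ_S)_q`: the units of `Ω` fixed by an `S`-level. -/
abbrev CS : Rep.{0} ℤ (primeLocalGaloisGroup q) := LqS S q

/-- The units of `Ω` (fixed by some level). -/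
abbrev CAll : Rep.{0} ℤ (primeLocalGaloisGroup q) := LqAll q

lemma CS_smooth : IsSmooth (locLevelsS S q) (CS S q) := smUnits_smooth

lemma CAll_smooth : IsSmooth (locLevelsAll q) (CAll q) := smUnits_smooth

/-- **The complex `K_q` of the local datum.** -/
abbrev locK : Cx (ZMod p) (primeLocalGaloisGroup q) := hullK p (CS S q)

/-- The universal-coefficient datum of `K_q`. -/
def locHullData :
    UCData p (locK p S q) (CS S q) (hullI (CS S q)) (hullQ (CS S q)) :=
  hullData p (CS S q)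

lemma hullI_CS_smooth : IsSmooth (locLevelsS S q) (hullI (CS S q)) :=
  hullI_smooth (CS S q) (locLevelsS S q) (CS_smooth S q)

lemma locK_smooth : (locK p S q).Smooth (locLevelsS S q) :=
  hullK_smooth p (CS S q) (locLevelsS S q) (CS_smooth S q)

/-- The `S`-levels are levels. -/
lemma locLevelsS_subset : (locLevelsS S q).sets ⊆ (locLevelsAll q).sets := by
  rintro _ ⟨V, hV, rfl⟩
  exact ⟨V, levelsS_sets_subset S hV, rfl⟩

end Concrete

/-! ### The formation of the smooth units `smUnits 𝓛 (locAct q)` -/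

section Lq

variable (q : Nat.Primes) (𝓛 : Levels (primeLocalGaloisGroup q))

lemma primeLocal_smul_units (g : primeLocalGaloisGroup q) (u : (PadicAlgCl (q : ℕ))ˣ) :
    ((g • u : (PadicAlgCl (q : ℕ))ˣ) : PadicAlgCl (q : ℕ)) = locAct q g (u : PadicAlgCl (q : ℕ)) :=
  (isLocalGal_LG (q := (q : ℕ))).1 g u

/-- The inclusion of `smUnits 𝓛 (locAct q)` into the units of `Ω`. -/
def lqJ : ↥(Fermat.Agent.F4.smUnits 𝓛 (locAct q)) →+ Additive (PadicAlgCl (q : ℕ))ˣ where
  toFun x := Additive.ofMul (Fermat.Agent.F4.smUnits.val x)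
  map_zero' := rfl
  map_add' _ _ := rfl

lemma lqJ_apply (x : ↥(Fermat.Agent.F4.smUnits 𝓛 (locAct q))) :
    lqJ q 𝓛 x = Additive.ofMul (Fermat.Agent.F4.smUnits.val x) := rfl

lemma lqJ_injective : Function.Injective (lqJ q 𝓛) := fun _ _ h =>
  Fermat.Agent.F4.smUnits.val_injective (Additive.ofMul.injective h)

lemma lqJ_ρ (g : primeLocalGaloisGroup q) (c : ↥(Fermat.Agent.F4.smUnits 𝓛 (locAct q))) :
    lqJ q 𝓛 ((Fermat.Agent.F4.smUnits 𝓛 (locAct q)).ρ g c)
      = Additive.ofMul (g • Additive.toMul (lqJ q 𝓛 c)) := by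
  apply congrArg Additive.ofMul
  apply Units.ext
  rw [primeLocal_smul_units]
  rfl

lemma mem_smUnitsSub_locAct_iff (u : (PadicAlgCl (q : ℕ))ˣ) :
    u ∈ Fermat.Agent.F4.smUnitsSub 𝓛 (locAct q) ↔ ∃ V ∈ 𝓛.sets, IsFixedBy V u := by
  constructor
  · rintro ⟨V, hV, h⟩
    exact ⟨V, hV, fun g hg => Units.ext ((primeLocal_smul_units q g u).trans (h g hg))⟩
  · rintro ⟨V, hV, h⟩
    exact ⟨V, hV, fun g hg => (primeLocal_smul_units q g u).symm.trans (congrArg Units.val (h g hg))⟩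

lemma lqJ_range (u : (PadicAlgCl (q : ℕ))ˣ) :
    (∃ c : ↥(Fermat.Agent.F4.smUnits 𝓛 (locAct q)), lqJ q 𝓛 c = Additive.ofMul u)
      ↔ ∃ V ∈ 𝓛.sets, IsFixedBy V u := by
  rw [← mem_smUnitsSub_locAct_iff]
  constructor
  · rintro ⟨c, hc⟩
    have : Fermat.Agent.F4.smUnits.val c = u := Additive.ofMul.injective hc
    rw [← this]
    exact Fermat.Agent.F4.smUnits.val_mem c
  · intro hu
    exact ⟨Fermat.Agent.F4.smUnits.mk u hu, rfl⟩

/-- The element of `smUnits 𝓛 (locAct q)` attached to a unit fixed by a level. -/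
def lqMk (u : (PadicAlgCl (q : ℕ))ˣ) (hu : ∃ V ∈ 𝓛.sets, IsFixedBy V u) :
    ↥(Fermat.Agent.F4.smUnits 𝓛 (locAct q)) :=
  Fermat.Agent.F4.smUnits.mk u ((mem_smUnitsSub_locAct_iff q 𝓛 u).2 hu)

lemma lqJ_mk (u : (PadicAlgCl (q : ℕ))ˣ) (hu : ∃ V ∈ 𝓛.sets, IsFixedBy V u) :
    lqJ q 𝓛 (lqMk q 𝓛 u hu) = Additive.ofMul u := rfl

/-- **The formation of the smooth units.** -/
def locFormation_lq (hopen : ∀ V ∈ 𝓛.sets, IsOpenSub (q : ℕ) V) :
    LocFormation (q : ℕ) 𝓛 (Fermat.Agent.F4.smUnits 𝓛 (locAct q)) where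
  isLocalGal := isLocalGal_LG (q := (q : ℕ))
  isOpenSub := hopen
  j := lqJ q 𝓛
  j_inj := lqJ_injective q 𝓛
  j_comm := lqJ_ρ q 𝓛
  j_range := lqJ_range q 𝓛

end Lq

end Fermat.Agent.F4.Loc

end
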