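import Fermat.Agent.F4.Loc.Datum.Levels
import Fermat.Agent.F4.Loc.Cyclo

/-!
# F4 / Loc / Datum / Inv : the invariant and a nonzero class  (DATUM, seat D-INV; proofs helper71)

* D-INV-1 `exists_injective_inv` : if any two classes of `HH²(𝓥, L)` are dependent (`DepHH2`), there
  is an injective linear form on `HH²(𝓥, L)` (linear algebra: `dim ≤ 1`);
* D-INV-2 `exists_nonzero_class` : `KF3` and a nonzero smooth character give a nonzero class
  (`z ∪ χ`, `UC.cupχ_mem_ZZ2`);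
* D-INV-3 `exists_smooth_char_S` : for `p ∈ S` the local group at `q` has a nonzero additive
  character to `𝔽_p` which is smooth for the `S`-levels: `exists_cyclo_char`
  (`F4/Loc/Cyclo.lean`) gives `χ : G_q ↠ ℤ/p` trivial on the stabiliser of `μ_{p^k}`, and
  `exists_locLevelsS_fixing_roots` gives an `S`-level fixing `μ_{p^k}`.
-/

set_option autoImplicit false

open CategoryTheory groupCohomology ExtCitation

namespace Fermat.Agent.F4.Loc

/-- **D-INV-1.**  An injective linear form on a space in which any two vectors are dependent. -/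
theorem exists_injective_inv {G : Type} [Group G] {p : ℕ} [Fact p.Prime] {𝓥 : Levels G}
    {L : Cx (ZMod p) G} (h : DepHH2 𝓥 L) :
    ∃ inv : HH2 𝓥 L →ₗ[ZMod p] ZMod p, Function.Injective inv := by
  by_cases h0 : ∀ v : HH2 𝓥 L, v = 0
  · exact ⟨0, fun a b _ => (h0 a).trans (h0 b).symm⟩
  · obtain ⟨v, hv⟩ := not_forall.1 h0
    obtain ⟨c, rfl⟩ := Submodule.mkQ_surjective _ v
    have hspan : ∀ w : HH2 𝓥 L, ∃ a : ZMod p, w = a • HH2π 𝓥 L c := by
      intro w
      obtain ⟨c', rfl⟩ := Submodule.mkQ_surjective _ w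
      obtain ⟨x, y, hxy, hB⟩ := h c c'
      have hsum : x • HH2π 𝓥 L c + y • HH2π 𝓥 L c' = 0 := by
        rw [← map_smul, ← map_smul, ← map_add]
        exact (HH2π_eq_zero_iff 𝓥 L _).2 hB
      have hy : y ≠ 0 := by
        rintro rfl
        rw [zero_smul, add_zero] at hsum
        rcases hxy with hx | hy
        · exact hv ((smul_eq_zero.1 hsum).resolve_left hx)
        · exact hy rfl
      refine ⟨-(y⁻¹ * x), ?_⟩
      have h1 : y • HH2π 𝓥 L c' = -(x • HH2π 𝓥 L c) := eq_neg_of_add_eq_zero_right hsum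
      calc HH2π 𝓥 L c' = y⁻¹ • (y • HH2π 𝓥 L c') := by
            rw [smul_smul, inv_mul_cancel₀ hy, one_smul]
        _ = -(y⁻¹ * x) • HH2π 𝓥 L c := by rw [h1, smul_neg, smul_smul, neg_smul]
    let f : ZMod p →ₗ[ZMod p] HH2 𝓥 L := LinearMap.toSpanSingleton (ZMod p) _ (HH2π 𝓥 L c)
    have hf : LinearMap.ker f = ⊥ := by
      rw [LinearMap.ker_eq_bot']
      intro a ha
      exact (smul_eq_zero.1 ha).resolve_right hv
    obtain ⟨g, hg⟩ := LinearMap.exists_leftInverse_of_injective f hf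
    refine ⟨g, (injective_iff_map_eq_zero g).2 fun w hw => ?_⟩
    obtain ⟨a, rfl⟩ := hspan w
    have h2 : g (f a) = a := by
      have := congrArg (fun φ : ZMod p →ₗ[ZMod p] ZMod p => φ a) hg
      simpa using this
    have h3 : f a = a • HH2π 𝓥 L c := rfl
    rw [← h3, h2] at hw
    rw [hw, zero_smul]

/-- **D-INV-2.**  A nonzero class of `HH²` from `KF3` and a nonzero smooth character. -/
theorem exists_nonzero_class {G : Type} [Group G] {p : ℕ} [Fact p.Prime] {𝓤 : Levels G}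
    {K : Cx (ZMod p) G} (hK3 : UC.KF3 𝓤 K)
    (χ : G → ZMod p) (hχ : ∀ g h, χ (g * h) = χ g + χ h) (hLC : IsLC₁ 𝓤 χ) (hne : χ ≠ 0) :
    ∃ c : ↥(ZZ2 𝓤 K), HH2π 𝓤 K c ≠ 0 := by
  have : NeZero p := ⟨(Fact.out : p.Prime).ne_zero⟩
  obtain ⟨z, hz, hzχ⟩ := hK3 χ hχ hLC hne
  refine ⟨⟨UC.cupχ z χ, UCData.cupχ_mem_ZZ2 hz hχ hLC⟩, fun h0 => hzχ ?_⟩
  exact (HH2π_eq_zero_iff 𝓤 K _).1 h0

/-- **D-INV-3.**  A nonzero smooth character of the local group at `q`, for `p ∈ S`. -/
theorem exists_smooth_char_S (p : ℕ) [Fact p.Prime] (S : Finset Nat.Primes) (q : Nat.Primes)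
    (hpS : pPrime p ∈ S) :
    ∃ χ : primeLocalGaloisGroup q → ZMod p, (∀ g h, χ (g * h) = χ g + χ h) ∧
      IsLC₁ (locLevelsS S q) χ ∧ χ ≠ 0 := by
  obtain ⟨k, χ, hsurj, -, hχ⟩ := exists_cyclo_char (isLocalGal_primeLocal q) p
  obtain ⟨V, hV, hfix⟩ := exists_locLevelsS_fixing_roots S q p hpS k
  have hVker : ∀ s ∈ V, χ s = 1 := fun s hs => hχ s (fun ζ hζ => hfix ζ hζ s hs)
  refine ⟨fun g => Multiplicative.toAdd (χ g), fun g h => ?_, ⟨V, hV, fun g s hs => ?_⟩, ?_⟩
  · show Multiplicative.toAdd (χ (g * h)) = _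
    rw [map_mul, toAdd_mul]
  · show Multiplicative.toAdd (χ (g * s)) = Multiplicative.toAdd (χ g)
    rw [map_mul, hVker s hs, mul_one]
  · intro h0
    obtain ⟨g, hg⟩ := hsurj (Multiplicative.ofAdd 1)
    have h1 := congrFun h0 g
    have h2 : Multiplicative.toAdd (χ g) = (0 : ZMod p) := h1
    rw [hg, toAdd_ofAdd] at h2
    have : Fact (1 < p) := ⟨(Fact.out : p.Prime).one_lt⟩
    exact one_ne_zero h2

end Fermat.Agent.F4.Loc
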