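import Fermat.Agent.F4.Loc.LocalGal
import Fermat.Agent.F4.Loc.Krasner
import Fermat.Agent.F4.Loc.FTC

/-!
# F4 / Loc / Datum / Open : the levels of the local Galois group are open (DATUM, helper26)

`Γ = LG q = Gal(PadicAlgCl q / ℚ_q)`, `r = localGaloisToGlobal q : Γ →* Gal(ℚ̄/ℚ)`,
`ι = padicEmbedding q`.

* `mem_comap_fixingSubgroup_iff` : `τ ∈ r⁻¹(Fix F) ↔ τ` fixes `ι(F)` pointwise;
* `isOpenSub_comap_fixingSubgroup` : `r⁻¹(Fix F)` is `IsOpenSub` for `F/ℚ` finite;
* `exists_level_fixing` (Krasner) : every `x ∈ Ω` is fixed by `r⁻¹(Fix F)` for some finite stable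
  `F/ℚ`;
* `IsOpenSub.exists_level_le` (Krasner) : every open subgroup of `Γ` contains some `r⁻¹(Fix F)`,
  `F/ℚ` finite and stable.
-/

set_option autoImplicit false
set_option linter.unusedSectionVars false

open scoped NNReal
open IntermediateField

namespace Fermat.Agent.F4.Loc

variable (q : ℕ) [Fact q.Prime]

/-- `r(τ)` fixes `x` iff `τ` fixes `ι x`. -/
theorem localGaloisToGlobal_apply_eq_iff (τ : LG q) (x : AlgebraicClosure ℚ) :
    localGaloisToGlobal q τ x = x ↔ τ (padicEmbedding q x) = padicEmbedding q x := by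
  rw [← padicEmbedding_localGaloisToGlobal]
  exact ⟨fun h => by rw [h], fun h => (padicEmbedding q).toRingHom.injective h⟩

/-- `τ ∈ r⁻¹(Fix F)` iff `τ` fixes `ι(F)` pointwise. -/
theorem mem_comap_fixingSubgroup_iff (F : IntermediateField ℚ (AlgebraicClosure ℚ)) (τ : LG q) :
    τ ∈ F.fixingSubgroup.comap (localGaloisToGlobal q) ↔
      ∀ x ∈ F, τ (padicEmbedding q x) = padicEmbedding q x := by
  rw [Subgroup.mem_comap, IntermediateField.mem_fixingSubgroup_iff]
  exact forall₂_congr fun x _ => localGaloisToGlobal_apply_eq_iff q τ x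

/-- The pullback of the fixing subgroup of a finite extension of `ℚ` is open. -/
theorem isOpenSub_comap_fixingSubgroup (F : IntermediateField ℚ (AlgebraicClosure ℚ))
    [FiniteDimensional ℚ F] :
    IsOpenSub q (F.fixingSubgroup.comap (localGaloisToGlobal q)) := by
  classical
  set b := Module.finBasis ℚ F with hb
  refine ⟨Finset.univ.image (fun i => padicEmbedding q ((b i : F) : AlgebraicClosure ℚ)),
    fun τ => ?_⟩
  rw [mem_comap_fixingSubgroup_iff]
  constructor
  · intro h x hx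
    obtain ⟨i, -, rfl⟩ := Finset.mem_image.1 hx
    exact h _ (b i).2
  · intro h x hx
    have hfix : ∀ i, localGaloisToGlobal q τ ((b i : F) : AlgebraicClosure ℚ)
        = ((b i : F) : AlgebraicClosure ℚ) := fun i =>
      (localGaloisToGlobal_apply_eq_iff q τ _).2
        (h _ (Finset.mem_image.2 ⟨i, Finset.mem_univ i, rfl⟩))
    rw [← localGaloisToGlobal_apply_eq_iff]
    have hx' : x = ∑ i, b.repr ⟨x, hx⟩ i • ((b i : F) : AlgebraicClosure ℚ) := by
      have h0 : ((∑ i, b.repr ⟨x, hx⟩ i • b i : F) : AlgebraicClosure ℚ) = x :=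
        congrArg Subtype.val (b.sum_repr ⟨x, hx⟩)
      rw [IntermediateField.coe_sum] at h0
      exact h0.symm
    rw [hx', map_sum]
    refine Finset.sum_congr rfl (fun i _ => ?_)
    rw [map_rat_smul, hfix]

/-- **Krasner**: every `x ∈ Ω` is fixed by `r⁻¹(Fix F)` for some finite stable `F/ℚ`. -/
theorem exists_level_fixing_field (E : IntermediateField ℚ_[q] (PadicAlgCl q))
    [FiniteDimensional ℚ_[q] E] :
    ∃ F : IntermediateField ℚ (AlgebraicClosure ℚ), FiniteDimensional ℚ F ∧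
      (∀ (σ : AlgebraicClosure ℚ ≃ₐ[ℚ] AlgebraicClosure ℚ) (x : AlgebraicClosure ℚ),
        x ∈ F → σ x ∈ F) ∧
      ∀ τ ∈ F.fixingSubgroup.comap (localGaloisToGlobal q), ∀ x ∈ E, τ x = x := by
  obtain ⟨F, hFfd, hFst, hEF⟩ := exists_numberField_level q E
  refine ⟨F, hFfd, hFst, fun τ hτ x hx => ?_⟩
  have h1 : τ ∈ (IntermediateField.adjoin ℚ_[q]
      (padicEmbedding q '' (F : Set (AlgebraicClosure ℚ)))).fixingSubgroup := by
    rw [mem_fixingSubgroup_adjoin_iff]
    rintro _ ⟨y, hy, rfl⟩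
    exact (mem_comap_fixingSubgroup_iff q F τ).1 hτ y hy
  exact (IntermediateField.mem_fixingSubgroup_iff _ _).1 h1 x (hEF hx)

theorem exists_level_fixing (x : PadicAlgCl q) :
    ∃ F : IntermediateField ℚ (AlgebraicClosure ℚ), FiniteDimensional ℚ F ∧
      (∀ (σ : AlgebraicClosure ℚ ≃ₐ[ℚ] AlgebraicClosure ℚ) (x : AlgebraicClosure ℚ),
        x ∈ F → σ x ∈ F) ∧
      ∀ τ ∈ F.fixingSubgroup.comap (localGaloisToGlobal q), τ x = x := by
  have hfd : FiniteDimensional ℚ_[q] ℚ_[q]⟮x⟯ :=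
    adjoin.finiteDimensional (Algebra.IsIntegral.isIntegral x)
  obtain ⟨F, hFfd, hFst, h⟩ := exists_level_fixing_field q ℚ_[q]⟮x⟯
  exact ⟨F, hFfd, hFst, fun τ hτ => h τ hτ x (mem_adjoin_simple_self ℚ_[q] x)⟩

/-- **Krasner**: every open subgroup of the local Galois group contains `r⁻¹(Fix F)` for some
finite stable `F/ℚ`. -/
theorem IsOpenSub.exists_level_le {H : Subgroup (LG q)} (hH : IsOpenSub q H) :
    ∃ F : IntermediateField ℚ (AlgebraicClosure ℚ), FiniteDimensional ℚ F ∧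
      (∀ (σ : AlgebraicClosure ℚ ≃ₐ[ℚ] AlgebraicClosure ℚ) (x : AlgebraicClosure ℚ),
        x ∈ F → σ x ∈ F) ∧
      F.fixingSubgroup.comap (localGaloisToGlobal q) ≤ H := by
  obtain ⟨T, hT⟩ := hH
  have hfd : FiniteDimensional ℚ_[q]
      (IntermediateField.adjoin ℚ_[q] (T : Set (PadicAlgCl q))) := by
    have : Finite (T : Set (PadicAlgCl q)) := (Finset.finite_toSet T).to_subtype
    exact IntermediateField.finiteDimensional_adjoin
      (fun x _ => Algebra.IsIntegral.isIntegral x)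
  obtain ⟨F, hFfd, hFst, h⟩ :=
    exists_level_fixing_field q (IntermediateField.adjoin ℚ_[q] (T : Set (PadicAlgCl q)))
  refine ⟨F, hFfd, hFst, fun τ hτ => (hT τ).2 (fun x hx => ?_)⟩
  exact h τ hτ x (IntermediateField.subset_adjoin ℚ_[q] _ (Finset.mem_coe.2 hx))

end Fermat.Agent.F4.Loc
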