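import Fermat.Agent.F4.Loc.Datum.Defs
import Fermat.Agent.F4.Loc.Datum.CycloLevel
import Fermat.Agent.F4.Loc.Datum.Open
import Fermat.Agent.F4.Loc.Krasner
import Fermat.Agent.F4.BR.Smooth

/-!
# F4 / Loc / Datum / Levels : the levels of `G_q` are open  (DATUM, seat D-LEV; sorry-free)

`G_q = primeLocalGaloisGroup q`, `r = primeLocalToGlobal q : G_q → G_ℚ`,
`ι = padicEmbedding q : ℚ̄ → Ω` with `ι (r g x) = g (ι x)` (`padicEmbedding_localGaloisToGlobal`).

* D-LEV-1 `isLocalGal_primeLocal`.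
* D-LEV-2 `isOpenSub_locLevelsAll` : `r⁻¹(fix F)` is the stabiliser of `ι(T)`, `T` a finite set of
  generators of `F` (`g ∈ r⁻¹(fix F) ↔ r g` fixes `T` `↔ g` fixes `ι T`, `ι` injective).
* D-LEV-3 `exists_locLevelsAll_le` (Krasner): every open subgroup `H` (stabiliser of a finite
  `T ⊂ Ω`) contains a level: by `exists_numberField_level` (`F4/Loc/Krasner.lean`) the field
  `ℚ_q(T)` is contained in `ℚ_q(ι F)` for a finite Galois `F/ℚ` inside `ℚ̄`.
* D-LEV-4 `exists_locLevelsS_fixing_roots` : for `p ∈ S` the `p^k`-th roots of unity of `Ω` are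
  fixed by an `S`-level (they are `ι` of the roots of unity of `ℚ̄`; `ℚ(μ_{p^k})` is unramified
  outside `p`: `br_smooth_mem_levelsS` + `Cyclo.padicChar_inertia`, cf. `isSmooth_Fp1`).
-/

set_option autoImplicit false

open CategoryTheory groupCohomology ExtCitation

namespace Fermat.Agent.F4.Loc

variable (S : Finset Nat.Primes) (q : Nat.Primes)

/-- **D-LEV-1.** -/
theorem isLocalGal_primeLocal : IsLocalGal (q : ℕ) (primeLocalGaloisGroup q) :=
  isLocalGal_LG (q := (q : ℕ))

/-- **D-LEV-2.**  The levels of `G_q` are open. -/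
theorem isOpenSub_locLevelsAll {V : Subgroup (primeLocalGaloisGroup q)}
    (hV : V ∈ (locLevelsAll q).sets) : IsOpenSub (q : ℕ) V := by
  obtain ⟨W, ⟨F, hF, -, rfl⟩, rfl⟩ := hV
  have := hF
  exact isOpenSub_comap_fixingSubgroup (q : ℕ) F

/-- The `S`-levels of `G_q` are open. -/
theorem isOpenSub_locLevelsS {V : Subgroup (primeLocalGaloisGroup q)}
    (hV : V ∈ (locLevelsS S q).sets) : IsOpenSub (q : ℕ) V :=
  isOpenSub_locLevelsAll q (locLevelsS_subset S q hV)

/-- **D-LEV-3 (Krasner).**  Every open subgroup of `G_q` contains a level. -/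
theorem exists_locLevelsAll_le {H : Subgroup (primeLocalGaloisGroup q)}
    (hH : IsOpenSub (q : ℕ) H) : ∃ V ∈ (locLevelsAll q).sets, V ≤ H := by
  obtain ⟨F, hF, hst, hle⟩ := IsOpenSub.exists_level_le (q : ℕ) (H := H) hH
  exact ⟨_, ⟨F.fixingSubgroup, ⟨F, hF, hst, rfl⟩, rfl⟩, hle⟩

/-- Every unit of `Ω` is fixed by a level. -/
theorem exists_locLevelsAll_fixing (u : (PadicAlgCl (q : ℕ))ˣ) :
    ∃ V ∈ (locLevelsAll q).sets, IsFixedBy V u := by
  obtain ⟨W, -, hW, hfix⟩ := exists_open_fixing (isLocalGal_primeLocal q) (u : PadicAlgCl (q : ℕ))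
  obtain ⟨V, hV, hVW⟩ := exists_locLevelsAll_le q hW
  refine ⟨V, hV, fun g hg => Units.ext ?_⟩
  rw [(isLocalGal_primeLocal q).1]
  exact hfix g (hVW hg)

/-- **D-LEV-4.**  For `p ∈ S`, the `p^k`-th roots of unity are fixed by an `S`-level. -/
theorem exists_locLevelsS_fixing_roots (p : ℕ) [Fact p.Prime] (hpS : pPrime p ∈ S) (k : ℕ) :
    ∃ V ∈ (locLevelsS S q).sets, ∀ ζ : PadicAlgCl (q : ℕ), ζ ^ (p ^ k) = 1 → IsFixedBy V ζ := by
  have : NeZero (p ^ k) := ⟨pow_ne_zero _ (Fact.out : p.Prime).ne_zero⟩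
  obtain ⟨V, hV, h⟩ := exists_locLevelS_fixing_roots p S hpS q k
  exact ⟨V, hV, fun ζ hζ τ hτ => padicEmbedding_fixes_roots (q : ℕ) (p ^ k) τ (h τ hτ) hζ⟩

/-- The formation of the `S`-smooth units over `G_q`. -/
noncomputable def formationSTop :
    LocFormation (q : ℕ) (locLevelsS S q) (CS S q) :=
  locFormation_lq q (locLevelsS S q) (fun _ hV => isOpenSub_locLevelsS S q hV)

/-- The formation of all units over `G_q`. -/
noncomputable def formationAllTop :
    LocFormation (q : ℕ) (locLevelsAll q) (CAll q) :=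
  locFormation_lq q (locLevelsAll q) (fun _ hV => isOpenSub_locLevelsAll q hV)

/-- The formation of the `S`-smooth units over an open subgroup `U` of `G_q`. -/
noncomputable def formationS (U : Subgroup (primeLocalGaloisGroup q))
    (hU : (locLevelsS S q).IsOpen U) :
    LocFormation (q : ℕ) ((locLevelsS S q).sub U) (Rep.res U.subtype (CS S q)) :=
  (formationSTop S q).res U hU

/-- The formation of all units over an open subgroup `U` of `G_q`. -/
noncomputable def formationAll (U : Subgroup (primeLocalGaloisGroup q))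
    (hU : (locLevelsAll q).IsOpen U) :
    LocFormation (q : ℕ) ((locLevelsAll q).sub U) (Rep.res U.subtype (CAll q)) :=
  (formationAllTop q).res U hU

end Fermat.Agent.F4.Loc
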