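import Fermat.Agent.F4.Loc.Datum.Mu
import Fermat.Agent.F4.Loc.Datum.Compare
import Fermat.Agent.F4.Loc.Datum.Inv

/-!
# F4 / Loc / Datum / Main : the local datum at `q`  (DATUM, assembly)

`localDatumOf φ q hinj hcomm inv invAll … : LocalDatum p S q` with `K = hullK p (LqS S q)`,
`ε = hullEps … (locUnit ∘ EsIncl ∘ φ)`; `exists_invs` : the two invariants; `nonempty_localDatum`.

Inputs: SMOOTH (`F4/Loc/Smooth/Main.lean`: `h90sm`, `f1sm`, `f3sm`, `maBridge`, `homFinite` for
every local formation), the glue `F4/UC/Bridge.lean`, `F4/Shapiro/R2.lean`, and the seats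
D-PHI (`exists_compare_HH2`), D-INV (`exists_injective_inv`, `exists_smooth_char_S`).
-/

set_option autoImplicit false
set_option linter.unusedSectionVars false

open CategoryTheory groupCohomology ExtCitation

noncomputable section

namespace Fermat.Agent.F4.Loc

variable {p : ℕ} [Fact p.Prime] {S : Finset Nat.Primes}

/-! ### generalities -/

lemma isLC₁_mono {G : Type} [Group G] {𝓤 𝓥 : Levels G} (h : 𝓤.sets ⊆ 𝓥.sets) {X : Type*}
    {f : G → X} (hf : IsLC₁ 𝓤 f) : IsLC₁ 𝓥 f := by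
  obtain ⟨V, hV, hfV⟩ := hf
  exact ⟨V, h hV, hfV⟩

/-- The index condition in the form of `F4/Shapiro/R2.lean`. -/
lemma card_quot_ne_zero {G : Type} [Group G] (U : Subgroup G) [Fintype (G ⧸ U)]
    (h : ¬ p ∣ U.index) : (Fintype.card (G ⧸ U) : ZMod p) ≠ 0 := by
  intro h0
  apply h
  rw [ZMod.natCast_eq_zero_iff] at h0
  rwa [Subgroup.index, Nat.card_eq_fintype_card]

/-- The two properties of a local datum over `U`, from the formation-level statements. -/
theorem a2Inj_a1Surj_of_formation {G : Type} [Group G] {𝓤 : Levels G} {K : Cx (ZMod p) G}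
    {C I Q : Rep.{0} ℤ G} (D : UCData p K C I Q) (hI : IsSmooth 𝓤 I)
    (inv : HH2 𝓤 K →ₗ[ZMod p] ZMod p) (hinv : ∃ c : ↥(ZZ2 𝓤 K), inv (HH2π 𝓤 K c) ≠ 0)
    (U : Subgroup G) (hU : 𝓤.IsOpen U) (hidx : ¬ p ∣ U.index)
    (h90 : UC.H90sm (𝓤.sub U) (Rep.res U.subtype C))
    (hF1 : UC.F1sm p (𝓤.sub U) (Rep.res U.subtype C))
    (hF3 : UC.F3sm p (𝓤.sub U) (Rep.res U.subtype C))
    (hfin : HomFinite p (𝓤.sub U)) :
    A2Inj 𝓤 K (permRep (ZMod p) U) inv ∧
      A1Surj 𝓤 K (permRep (ZMod p) U) inv (permRep_smooth _ hU) (permRep_finite _ hU) := by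
  have := hU.finite_quotient
  let _ := Fintype.ofFinite (G ⧸ U)
  have hc := card_quot_ne_zero (p := p) U hidx
  have hdep := D.depHH2_res hI U h90 hF1
  exact ⟨a2Inj_permRep_of_dep U K inv hU hc hdep hinv,
    a1Surj_permRep_of_nondeg U K inv hU (a2InjU_of_dep U K inv hU hc hdep hinv) hfin
      (D.cupNondegRight_res hI U hF3)⟩

/-! ### the local datum -/

section Datum

variable (φ : Fp1 p →+ EsRep S) (q : Nat.Primes) (hinj : Function.Injective φ)
  (hcomm : ∀ (g : GQ) (x : Fp1 p), φ ((Fp1 p).ρ g x) = (EsRep S).ρ g (φ x))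
  (hpS : pPrime p ∈ S)

/-- The bridge `MA` as injectivity of `H²(𝓛_S, L_S) → H²(𝓛, L)`. -/
theorem inclSA_B2 (w : primeLocalGaloisGroup q × primeLocalGaloisGroup q → ↥(CS S q))
    (hw : w ∈ Z2 (locLevelsS S q) (CS S q))
    (hB : (fun x => inclSA S q (w x)) ∈ B2 (locLevelsAll q) (CAll q)) :
    w ∈ B2 (locLevelsS S q) (CS S q) :=
  (formationSTop S q).maBridge w hw (f1_isSmCob2_of_mem_B2 (formationAllTop q) hB)

include hinj hcomm hpS in
/-- The two invariants, with their properties. -/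
theorem exists_invs :
    ∃ (inv : HH2 (locLevelsS S q) (locK p S q) →ₗ[ZMod p] ZMod p)
      (invAll : HH2 (locLevelsAll q) (locMu p q) →ₗ[ZMod p] ZMod p),
      (∃ c : ↥(ZZ2 (locLevelsS S q) (locK p S q)), inv (HH2π _ _ c) ≠ 0) ∧
      (∃ c : ↥(ZZ2 (locLevelsAll q) (locMu p q)), invAll (HH2π _ _ c) ≠ 0) ∧
      ∀ (z : T2 (locMu p q)) (hz : z ∈ ZZ2 (locLevelsS S q) (locMu p q))
        (hz' : z ∈ ZZ2 (locLevelsAll q) (locMu p q)),
        inv (HH2π _ _ ((locEps φ q hcomm).mapZZ2 _ ⟨z, hz⟩)) = invAll (HH2π _ _ ⟨z, hz'⟩) := by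
  have : NeZero p := ⟨(Fact.out : p.Prime).ne_zero⟩
  have hIS := hullI_CS_smooth S q
  have hIA := CAll_smooth q
  have hK1 : Subsingleton ↥(locMu p q).K1 := inferInstanceAs (Subsingleton PUnit.{1})
  obtain ⟨Φ, hΦinj, hΦ⟩ := exists_compare_HH2 (locLevelsS_subset S q) (locHullData p S q)
    (muData φ q hinj hcomm) hIS hIA hK1 (inclSA S q) (inclSA_comm S q) (locEps φ q hcomm)
    (muS φ q) (fun _ => rfl) (fun _ => rfl) (formationSTop S q).h90sm (formationAllTop q).h90sm
    (inclSA_B2 q)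
  obtain ⟨invAll, hinvAll⟩ := exists_injective_inv (UC.depHH2_of_KF1
    ((muData φ q hinj hcomm).kF1 hIA (formationAllTop q).h90sm ((formationAllTop q).f1sm p)))
  obtain ⟨χ, hχ, hχLC, hχ0⟩ := exists_smooth_char_S p S q hpS
  obtain ⟨cS, hcS⟩ := exists_nonzero_class
    ((locHullData p S q).kF3 hIS ((formationSTop S q).f3sm p)) χ hχ hχLC hχ0
  obtain ⟨cA, hcA⟩ := exists_nonzero_class
    ((muData φ q hinj hcomm).kF3 hIA ((formationAllTop q).f3sm p)) χ hχ
    (isLC₁_mono (locLevelsS_subset S q) hχLC) hχ0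
  refine ⟨invAll ∘ₗ Φ, invAll, ⟨cS, fun h => hcS ?_⟩, ⟨cA, fun h => hcA ?_⟩, fun z hz hz' => ?_⟩
  · apply hΦinj
    apply hinvAll
    rw [map_zero, map_zero]
    exact h
  · apply hinvAll
    rw [map_zero]
    exact h
  · rw [LinearMap.comp_apply, hΦ z hz hz']

include hinj in
/-- The local datum attached to a pair of compatible nonzero invariants. -/
def localDatumOf (inv : HH2 (locLevelsS S q) (locK p S q) →ₗ[ZMod p] ZMod p)
    (invAll : HH2 (locLevelsAll q) (locMu p q) →ₗ[ZMod p] ZMod p)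
    (hinv : ∃ c : ↥(ZZ2 (locLevelsS S q) (locK p S q)), inv (HH2π _ _ c) ≠ 0)
    (hinvAll : ∃ c : ↥(ZZ2 (locLevelsAll q) (locMu p q)), invAll (HH2π _ _ c) ≠ 0)
    (hcompat : ∀ (z : T2 (locMu p q)) (hz : z ∈ ZZ2 (locLevelsS S q) (locMu p q))
        (hz' : z ∈ ZZ2 (locLevelsAll q) (locMu p q)),
        inv (HH2π _ _ ((locEps φ q hcomm).mapZZ2 _ ⟨z, hz⟩)) = invAll (HH2π _ _ ⟨z, hz'⟩)) :
    LocalDatum p S q where
  K := locK p S q
  smooth := locK_smooth p S q
  ε := locEps φ q hcomm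
  ε_inj := locEps_injective φ q hinj hcomm
  inv := inv
  a2inj := fun U hU hidx =>
    (a2Inj_a1Surj_of_formation (locHullData p S q) (hullI_CS_smooth S q) inv hinv U hU hidx
      ((formationSTop S q).h90sm_res U hU) ((formationSTop S q).f1sm_res p U hU)
      ((formationSTop S q).f3sm_res p U hU) ((formationSTop S q).homFinite_res p U hU)).1
  a1surj := fun U hU hidx =>
    (a2Inj_a1Surj_of_formation (locHullData p S q) (hullI_CS_smooth S q) inv hinv U hU hidx
      ((formationSTop S q).h90sm_res U hU) ((formationSTop S q).f1sm_res p U hU)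
      ((formationSTop S q).f3sm_res p U hU) ((formationSTop S q).homFinite_res p U hU)).2
  invAll := invAll
  a2injAll := fun U hU hidx =>
    (a2Inj_a1Surj_of_formation (muData φ q hinj hcomm) (CAll_smooth q) invAll hinvAll U hU hidx
      ((formationAllTop q).h90sm_res U hU) ((formationAllTop q).f1sm_res p U hU)
      ((formationAllTop q).f3sm_res p U hU) ((formationAllTop q).homFinite_res p U hU)).1
  a1surjAll := fun U hU hidx =>
    (a2Inj_a1Surj_of_formation (muData φ q hinj hcomm) (CAll_smooth q) invAll hinvAll U hU hidx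
      ((formationAllTop q).h90sm_res U hU) ((formationAllTop q).f1sm_res p U hU)
      ((formationAllTop q).f3sm_res p U hU) ((formationAllTop q).homFinite_res p U hU)).2
  inv_ε := hcompat

include hinj hcomm hpS in
/-- **DATUM.**  The local datum at `q` exists. -/
theorem nonempty_localDatum : Nonempty (LocalDatum p S q) := by
  obtain ⟨inv, invAll, hinv, hinvAll, hcompat⟩ := exists_invs φ q hinj hcomm hpS
  exact ⟨localDatumOf φ q hinj hcomm inv invAll hinv hinvAll hcompat⟩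

end Datum

end Fermat.Agent.F4.Loc

end
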