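import Fermat.Agent.F4.Loc.Datum.Levels

/-!
# F4 / Loc / Datum / Mu : `μ_p` inside the units of `Ω`  (DATUM)

`φ : Fp1 p →+ EsRep S` a global root map (injective, equivariant; `IsRootMap` of `F4/Cf/Recip.lean`,
here with the properties as explicit hypotheses).

* `inclSA S q : LqS S q →+ LqAll q` : the inclusion;
* `muS φ q : μ_p → LqS S q`, `m ↦ ι_q (φ m)`; `muA φ q = inclSA ∘ muS`;
* `muS_comm`, `muS_injective`, `muA_comm`, `muA_injective`, `muA_range`;
* `LqAll_div` : `LqAll q` is `p`-divisible;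
* `locEps φ hφ q : CxHom (locMu p q) (locK p S q)`;
* `muData φ … : UCData p (locMu p q) (LqAll q) (LqAll q) 0`.
-/

set_option autoImplicit false
set_option linter.unusedSectionVars false

open CategoryTheory groupCohomology ExtCitation

noncomputable section

namespace Fermat.Agent.F4.Loc

/-! ### The inclusion `LqS → LqAll` -/

section Incl

variable (S : Finset Nat.Primes) (q : Nat.Primes)

lemma smUnitsSub_S_le_All :
    Fermat.Agent.F4.smUnitsSub (locLevelsS S q) (locAct q)
      ≤ Fermat.Agent.F4.smUnitsSub (locLevelsAll q) (locAct q) := by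
  rintro u ⟨V, hV, h⟩
  exact ⟨V, locLevelsS_subset S q hV, h⟩

/-- The inclusion `LqS S q → LqAll q`. -/
def inclSA : ↥(LqS S q) →+ ↥(LqAll q) where
  toFun x := Fermat.Agent.F4.smUnits.mk (Fermat.Agent.F4.smUnits.val x)
    (smUnitsSub_S_le_All S q (Fermat.Agent.F4.smUnits.val_mem x))
  map_zero' := rfl
  map_add' _ _ := rfl

@[simp] lemma inclSA_val (x : ↥(LqS S q)) :
    Fermat.Agent.F4.smUnits.val (inclSA S q x) = Fermat.Agent.F4.smUnits.val x := rfl

lemma inclSA_injective : Function.Injective (inclSA S q) := fun x y h =>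
  Fermat.Agent.F4.smUnits.val_injective
    ((inclSA_val S q x).symm.trans ((congrArg Fermat.Agent.F4.smUnits.val h).trans (inclSA_val S q y)))

lemma inclSA_comm (g : primeLocalGaloisGroup q) (x : ↥(LqS S q)) :
    inclSA S q ((LqS S q).ρ g x) = (LqAll q).ρ g (inclSA S q x) := rfl

lemma lqJ_inclSA (x : ↥(LqS S q)) :
    lqJ q (locLevelsAll q) (inclSA S q x) = lqJ q (locLevelsS S q) x := rfl

end Incl

/-! ### `LqAll` is divisible -/

section Div

variable (q : Nat.Primes)

/-- Every unit of `Ω` is in `LqAll q`. -/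
lemma mem_smUnitsSub_All (u : (PadicAlgCl (q : ℕ))ˣ) :
    u ∈ Fermat.Agent.F4.smUnitsSub (locLevelsAll q) (locAct q) :=
  (mem_smUnitsSub_locAct_iff q (locLevelsAll q) u).2 (exists_locLevelsAll_fixing q u)

/-- The units of `Ω` are `n`-divisible. -/
theorem LqAll_div (n : ℕ) (hn : n ≠ 0) (x : ↥(LqAll q)) : ∃ y : ↥(LqAll q), (n : ℤ) • y = x := by
  have hpos : 0 < n := Nat.pos_of_ne_zero hn
  obtain ⟨v, hv⟩ := IsAlgClosed.exists_pow_nat_eq
    ((Fermat.Agent.F4.smUnits.val x : (PadicAlgCl (q : ℕ))ˣ) : PadicAlgCl (q : ℕ)) hpos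
  have hv0 : v ≠ 0 := by
    rintro rfl
    rw [zero_pow hn] at hv
    exact (Fermat.Agent.F4.smUnits.val x).ne_zero hv.symm
  refine ⟨Fermat.Agent.F4.smUnits.mk (Units.mk0 v hv0) (mem_smUnitsSub_All q _), ?_⟩
  apply Fermat.Agent.F4.smUnits.val_injective
  rw [Fermat.Agent.F4.smUnits.val_zsmul, Fermat.Agent.F4.smUnits.val_mk, zpow_natCast]
  apply Units.ext
  rw [Units.val_pow_eq_pow_val, Units.val_mk0, hv]

end Div

/-! ### The root map -/

section Root

variable {p : ℕ} [Fact p.Prime] {S : Finset Nat.Primes} (φ : Fp1 p →+ EsRep S) (q : Nat.Primes)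

/-- `μ_p → LqS S q`, `m ↦ ι_q (φ m)`. -/
def muS : ↥(Rep.res (primeLocalToGlobal q) (Fp1 p)) →+ ↥(LqS S q) :=
  (locUnit S q).comp ((EsIncl S).comp φ)

lemma muS_apply (m : ↥(Rep.res (primeLocalToGlobal q) (Fp1 p))) :
    muS φ q m = locUnit S q (EsIncl S (φ m)) := rfl

/-- `μ_p → LqAll q`. -/
def muA : ↥(Rep.res (primeLocalToGlobal q) (Fp1 p)) →+ ↥(LqAll q) :=
  (inclSA S q).comp (muS φ q)

lemma muA_apply (m : ↥(Rep.res (primeLocalToGlobal q) (Fp1 p))) :
    muA φ q m = inclSA S q (muS φ q m) := rfl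

variable (hinj : Function.Injective φ)
  (hcomm : ∀ (g : GQ) (x : Fp1 p), φ ((Fp1 p).ρ g x) = (EsRep S).ρ g (φ x))

include hcomm in
lemma muS_comm (g : primeLocalGaloisGroup q) (m : ↥(Rep.res (primeLocalToGlobal q) (Fp1 p))) :
    muS φ q ((Rep.res (primeLocalToGlobal q) (Fp1 p)).ρ g m) = (LqS S q).ρ g (muS φ q m) := by
  show locUnit S q (EsIncl S (φ ((Fp1 p).ρ (primeLocalToGlobal q g) m))) = _
  rw [hcomm]
  exact locUnit_comm S q g (EsIncl S (φ m))

include hinj in
lemma muS_injective : Function.Injective (muS φ q) := fun _ _ h =>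
  hinj (subIncl_injective _ _ _ (locUnit_injective S q h))

include hcomm in
lemma muA_comm (g : primeLocalGaloisGroup q) (m : ↥(Rep.res (primeLocalToGlobal q) (Fp1 p))) :
    muA φ q ((Rep.res (primeLocalToGlobal q) (Fp1 p)).ρ g m) = (LqAll q).ρ g (muA φ q m) := by
  rw [muA_apply, muS_comm φ q hcomm, inclSA_comm]
  rfl

include hinj in
lemma muA_injective : Function.Injective (muA φ q) := fun _ _ h =>
  muS_injective φ q hinj (inclSA_injective S q h)

/-- The value of `muA` in `Ω`. -/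
def muVal (m : ZMod p) : PadicAlgCl (q : ℕ) :=
  ((Fermat.Agent.F4.smUnits.val (muA φ q m) : (PadicAlgCl (q : ℕ))ˣ) : PadicAlgCl (q : ℕ))

lemma muVal_add (a b : ZMod p) : muVal φ q (a + b) = muVal φ q a * muVal φ q b := by
  unfold muVal
  rw [map_add, Fermat.Agent.F4.smUnits.val_add, Units.val_mul]

lemma muVal_zero : muVal φ q 0 = 1 := by
  unfold muVal
  rw [map_zero]
  rfl

lemma muVal_natCast (n : ℕ) : muVal φ q (n : ZMod p) = muVal φ q 1 ^ n := by
  induction n with
  | zero => rw [Nat.cast_zero, muVal_zero, pow_zero]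
  | succ n ih => rw [Nat.cast_succ, muVal_add, ih, pow_succ]

include hinj in
lemma muVal_one_isPrimitiveRoot : IsPrimitiveRoot (muVal φ q 1) p := by
  have hp : p.Prime := Fact.out
  have h1 : muVal φ q 1 ^ p = 1 := by
    rw [← muVal_natCast, ZMod.natCast_self, muVal_zero]
  have h2 : muVal φ q 1 ≠ 1 := by
    intro h
    have h3 : muA φ q (1 : ZMod p) = muA φ q (0 : ZMod p) := by
      apply Fermat.Agent.F4.smUnits.val_injective
      apply Units.ext
      show muVal φ q 1 = muVal φ q 0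
      rw [h, muVal_zero]
    have h4 := muA_injective φ q hinj h3
    have : Fact (1 < p) := ⟨hp.one_lt⟩
    exact one_ne_zero h4
  rw [IsPrimitiveRoot.iff_orderOf]
  exact orderOf_eq_prime h1 h2

include hinj in
/-- The image of `muA` is the `p`-torsion of `LqAll q`. -/
theorem muA_range (c : ↥(LqAll q)) (hc : (p : ℤ) • c = 0) : ∃ m, muA φ q m = c := by
  have hp : p.Prime := Fact.out
  have : NeZero p := ⟨hp.ne_zero⟩
  have h1 : ((Fermat.Agent.F4.smUnits.val c : (PadicAlgCl (q : ℕ))ˣ) : PadicAlgCl (q : ℕ)) ^ p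
      = 1 := by
    have := congrArg Fermat.Agent.F4.smUnits.val hc
    rw [Fermat.Agent.F4.smUnits.val_zsmul, zpow_natCast] at this
    rw [← Units.val_pow_eq_pow_val, this]
    rfl
  obtain ⟨i, -, hi⟩ := (muVal_one_isPrimitiveRoot φ q hinj).eq_pow_of_pow_eq_one h1
  refine ⟨((i : ZMod p) : ZMod p), ?_⟩
  apply Fermat.Agent.F4.smUnits.val_injective
  apply Units.ext
  show muVal φ q (i : ZMod p) = _
  rw [muVal_natCast, hi]

/-- **`ε : μ_p → K_q`.** -/
def locEps : CxHom (locMu p q) (locK p S q) :=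
  hullEps (Rep.res (primeLocalToGlobal q) (Fp1 p)) (muS φ q) (muS_comm φ q hcomm)

include hinj in
theorem locEps_injective : Function.Injective (locEps φ q hcomm).f0 :=
  hullEps_f0_injective _ _ _ (muS_injective φ q hinj)

lemma locEps_compat (m : Fp1 p) :
    (locHullData p S q).i0 ((locEps φ q hcomm).f0 m)
      = (locHullData p S q).ι (locUnit S q (EsIncl S (φ m))) := rfl

/-- **The universal-coefficient datum of `μ_p = Ωˣ[p]`.** -/
def muData : UCData p (locMu p q) (CAll q) (CAll q) (zeroRep (primeLocalGaloisGroup q)) where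
  ι := AddMonoidHom.id _
  π := 0
  i0 := muA φ q
  i1 := 0
  ι_inj := fun _ _ h => h
  π_surj := fun _ => ⟨0, Subsingleton.elim _ _⟩
  exact := fun x => ⟨fun _ => ⟨x, rfl⟩, fun _ => Subsingleton.elim _ _⟩
  ι_comm := fun _ _ => rfl
  π_comm := fun _ _ => Subsingleton.elim _ _
  i0_comm := muA_comm φ q hcomm
  i1_comm := fun _ _ => Subsingleton.elim _ _
  i0_inj := muA_injective φ q hinj
  i1_inj := fun a b _ => @Subsingleton.elim PUnit.{1} inferInstance a b
  i0_range := muA_range φ q hinj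
  i1_range := fun _ _ => ⟨0, Subsingleton.elim _ _⟩
  comm := fun _ => Subsingleton.elim _ _
  div := LqAll_div q p (Fact.out : p.Prime).ne_zero

end Root

end Fermat.Agent.F4.Loc

end
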